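/-
Binary quartic forms for the squarefree sieve.
-/
import Mathlib.Algebra.Polynomial.Eval.Defs
import Mathlib.Algebra.Polynomial.Basic

set_option autoImplicit false

open Polynomial

namespace Fermat.Agent.TwoAdic

variable {R : Type*} [CommRing R]

/-- The binary quartic form with coefficients `c₀, …, c₄`. -/
def quarticForm (c₀ c₁ c₂ c₃ c₄ a b : R) : R :=
  c₀ * a ^ 4 + c₁ * a ^ 3 * b + c₂ * a ^ 2 * b ^ 2 + c₃ * a * b ^ 3 + c₄ * b ^ 4

/-- The dehomogenised polynomial of `quarticForm` (`b = 1`). -/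
noncomputable def quarticPoly (c₀ c₁ c₂ c₃ c₄ : R) : R[X] :=
  C c₀ * X ^ 4 + C c₁ * X ^ 3 + C c₂ * X ^ 2 + C c₃ * X + C c₄

end Fermat.Agent.TwoAdic
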