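/-
Counting lemmas for the squarefree sieve.
-/
import Mathlib.NumberTheory.Chebyshev
import Mathlib.Analysis.PSeries
import Mathlib.RingTheory.Int.Basic
import Mathlib.Algebra.Order.Floor.Semiring

set_option autoImplicit false

open Finset Filter

namespace Fermat.Agent.TwoAdic

/-- A subset of an interval of length `N` whose differences are divisible by `m` has at most
`N / m + 1` elements. -/
theorem card_le_of_dvd_sub {X : ℤ} {N m : ℕ} {F : Finset ℤ} (hm : 0 < m)
    (hF : F ⊆ Ico X (X + N)) (hd : ∀ i ∈ F, ∀ j ∈ F, (m : ℤ) ∣ i - j) :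
    F.card ≤ N / m + 1 := by
  refine (card_le_card_of_injOn (t := range (N / m + 1)) (fun i => (i - X).toNat / m) ?_ ?_).trans
    (card_range _).le
  · intro i hi
    have := mem_Ico.mp (hF hi)
    rw [mem_coe, mem_range]
    exact Nat.lt_succ_of_le (Nat.div_le_div_right (by omega))
  · intro i hi j hj hij
    have hiX := mem_Ico.mp (hF hi)
    have hjX := mem_Ico.mp (hF hj)
    have h1 : m * ((i - X).toNat / m) ≤ (i - X).toNat := Nat.mul_div_le _ _
    have h2 : m * ((j - X).toNat / m) ≤ (j - X).toNat := Nat.mul_div_le _ _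
    have h3 := Nat.lt_mul_div_succ (i - X).toNat hm
    have h4 := Nat.lt_mul_div_succ (j - X).toNat hm
    simp only at hij
    rw [hij] at h1 h3
    rw [mul_add, mul_one] at h3 h4
    have h5 : |i - j| < (m : ℤ) := by
      rw [abs_lt]; omega
    linarith [Int.eq_zero_of_abs_lt_dvd (hd i hi j hj) h5]

/-- Congruences `p ∣ c + M i` with `p ∤ M` cut out one class modulo `p`. -/
theorem dvd_sub_of_dvd_add_mul {m c M i j : ℤ} (hM : IsCoprime m M) (hi : m ∣ c + M * i)
    (hj : m ∣ c + M * j) : m ∣ i - j :=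
  hM.dvd_of_dvd_mul_left (by simpa [mul_sub] using dvd_sub hi hj)

/-- `π(n) = o(n)`. -/
theorem eventually_mul_primeCounting_le (K : ℕ) :
    ∀ᶠ n : ℕ in atTop, K * Nat.primeCounting n ≤ n := by
  have h1 : ∀ᶠ x : ℝ in atTop, (K : ℝ) * (Real.log 4 + 1) ≤ Real.log x :=
    Real.tendsto_log_atTop.eventually_ge_atTop _
  filter_upwards [tendsto_natCast_atTop_atTop.eventually
    ((Chebyshev.eventually_primeCounting_le one_pos).and (h1.and (eventually_gt_atTop (1 : ℝ))))]
    with n hn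
  obtain ⟨h2, h3, h4⟩ := hn
  rw [Nat.floor_natCast] at h2
  have hlog : 0 < Real.log (n : ℝ) := Real.log_pos h4
  rw [le_div_iff₀ hlog] at h2
  have key : (K : ℝ) * (Nat.primeCounting n) * Real.log n ≤ (n : ℝ) * Real.log n := by
    calc (K : ℝ) * (Nat.primeCounting n) * Real.log n
        ≤ (K : ℝ) * ((Real.log 4 + 1) * n) := by
          rw [mul_assoc]; exact mul_le_mul_of_nonneg_left h2 (Nat.cast_nonneg K)
      _ ≤ (n : ℝ) * Real.log n := by
          rw [← mul_assoc, mul_comm _ (n : ℝ)]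
          exact mul_le_mul_of_nonneg_left h3 (Nat.cast_nonneg n)
  exact_mod_cast le_of_mul_le_mul_right key hlog

/-- `∑_{n > Q} 1/n² ≤ 2/(Q+1)` in the form used by the sieve. -/
theorem sum_primes_div_sq_le (N Q n : ℕ) :
    (∑ p ∈ (Ioc Q n).filter Nat.Prime, (N : ℝ) ^ 2 / (p : ℝ) ^ 2) ≤
      2 * (N : ℝ) ^ 2 / (Q + 1) := by
  calc (∑ p ∈ (Ioc Q n).filter Nat.Prime, (N : ℝ) ^ 2 / (p : ℝ) ^ 2)
      ≤ ∑ i ∈ Ioo Q (n + 1), (N : ℝ) ^ 2 * ((i : ℝ) ^ 2)⁻¹ := by
        refine (le_of_eq (sum_congr rfl fun p _ => div_eq_mul_inv _ _)).trans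
          (sum_le_sum_of_subset_of_nonneg (fun p hp => ?_) fun i _ _ => by positivity)
        simp only [mem_filter, mem_Ioc, mem_Ioo] at hp ⊢
        omega
    _ ≤ (N : ℝ) ^ 2 * (2 / (Q + 1)) := by
        rw [← mul_sum]; exact mul_le_mul_of_nonneg_left (sum_Ioo_inv_sq_le Q (n + 1)) (by positivity)
    _ = _ := by ring

theorem card_primes_Ioc_le (Q n : ℕ) :
    ((Ioc Q n).filter Nat.Prime).card ≤ Nat.primeCounting n := by
  rw [← Nat.primesLE_card_eq_primeCounting]
  refine card_le_card fun p hp => ?_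
  simp only [mem_filter, mem_Ioc, Nat.mem_primesLE] at hp ⊢
  exact ⟨hp.1.2, hp.2⟩

end Fermat.Agent.TwoAdic
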