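/-
Roots modulo the square of a prime of a separable quartic.
-/
import Fermat.Agent.TwoAdic.Sieve.Defs
import Mathlib.Algebra.Polynomial.Roots
import Mathlib.Algebra.Polynomial.Identities
import Mathlib.Data.Int.Interval
import Mathlib.Algebra.Field.ZMod
import Mathlib.RingTheory.Int.Basic
import Mathlib.FieldTheory.Perfect
import Mathlib.RingTheory.Localization.Integral
import Mathlib.Tactic.ComputeDegree
import Mathlib.Tactic.LinearCombination

set_option autoImplicit false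

open Polynomial

namespace Fermat.Agent.TwoAdic

theorem eval_quarticPoly {R : Type*} [CommRing R] (c₀ c₁ c₂ c₃ c₄ x : R) :
    (quarticPoly c₀ c₁ c₂ c₃ c₄).eval x = quarticForm c₀ c₁ c₂ c₃ c₄ x 1 := by
  simp [quarticPoly, quarticForm]

theorem natDegree_quarticPoly_le {R : Type*} [CommRing R] (c₀ c₁ c₂ c₃ c₄ : R) :
    (quarticPoly c₀ c₁ c₂ c₃ c₄).natDegree ≤ 4 := by
  unfold quarticPoly
  compute_degree

theorem coeff_four_quarticPoly {R : Type*} [CommRing R] (c₀ c₁ c₂ c₃ c₄ : R) :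
    (quarticPoly c₀ c₁ c₂ c₃ c₄).coeff 4 = c₀ := by
  unfold quarticPoly
  compute_degree!

/-- An integral Bezout identity for a polynomial which is squarefree over `ℚ`. -/
theorem exists_bezout_derivative (h : ℤ[X])
    (hsep : Squarefree (h.map (Int.castRingHom ℚ))) :
    ∃ (D : ℤ) (U V : ℤ[X]), D ≠ 0 ∧ U * h + V * derivative h = C D := by
  obtain ⟨u, v, huv⟩ := (Polynomial.separable_def _).mp
    ((PerfectField.separable_iff_squarefree).mpr hsep)
  obtain ⟨du, hdu, hu⟩ := IsLocalization.integerNormalization_spec (nonZeroDivisors ℤ) u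
  obtain ⟨dv, hdv, hv⟩ := IsLocalization.integerNormalization_spec (nonZeroDivisors ℤ) v
  set U := IsLocalization.integerNormalization (nonZeroDivisors ℤ) u
  set V := IsLocalization.integerNormalization (nonZeroDivisors ℤ) v
  refine ⟨du * dv, C dv * U, C du * V,
    mul_ne_zero (nonZeroDivisors.ne_zero hdu) (nonZeroDivisors.ne_zero hdv), ?_⟩
  apply Polynomial.map_injective (Int.castRingHom ℚ) (Int.castRingHom ℚ).injective_int
  have hU : U.map (Int.castRingHom ℚ) = C (du : ℚ) * u := by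
    rw [← algebraMap_int_eq, hu, zsmul_eq_mul, map_intCast]
  have hV : V.map (Int.castRingHom ℚ) = C (dv : ℚ) * v := by
    rw [← algebraMap_int_eq, hv, zsmul_eq_mul, map_intCast]
  rw [derivative_map] at huv
  rw [Polynomial.map_add, Polynomial.map_mul, Polynomial.map_mul, Polynomial.map_mul,
    Polynomial.map_mul, Polynomial.map_C, Polynomial.map_C, Polynomial.map_C, hU, hV, map_mul]
  simp only [eq_intCast (Int.castRingHom ℚ), map_mul]
  linear_combination (C (du : ℚ) * C (dv : ℚ)) * huv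

/-- Away from finitely many primes, the primitive zeros modulo `q²` of a binary quartic form lie
in at most four classes `a ≡ r b`. -/
theorem exists_classes_quarticForm {c₀ c₁ c₂ c₃ c₄ : ℤ} (hc₀ : c₀ ≠ 0)
    (hsep : Squarefree ((quarticPoly c₀ c₁ c₂ c₃ c₄).map (Int.castRingHom ℚ))) :
    ∃ q₀ : ℕ, ∀ q : ℕ, q.Prime → q₀ < q → ∃ R : Finset ℤ, R.card ≤ 4 ∧
      ∀ a b : ℤ, ¬ ((q : ℤ) ∣ a ∧ (q : ℤ) ∣ b) →
        (q : ℤ) ^ 2 ∣ quarticForm c₀ c₁ c₂ c₃ c₄ a b → ∃ r ∈ R, (q : ℤ) ^ 2 ∣ a - r * b := by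
  set h := quarticPoly c₀ c₁ c₂ c₃ c₄ with hh
  obtain ⟨D, U, V, hD, hUV⟩ := exists_bezout_derivative h hsep
  refine ⟨D.natAbs + c₀.natAbs, fun q hq hlarge => ?_⟩
  have hq' : Prime (q : ℤ) := Nat.prime_iff_prime_int.mp hq
  have : Fact q.Prime := ⟨hq⟩
  have hnd : ∀ {d : ℤ}, d ≠ 0 → d.natAbs < q → ¬ (q : ℤ) ∣ d := fun hd hlt hdvd =>
    absurd (Nat.le_of_dvd (Int.natAbs_pos.mpr hd) (Int.natCast_dvd.mp hdvd)) (by omega)
  have hqD := hnd hD (by omega)
  have hqc := hnd hc₀ (by omega)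
  have hq2 : (0 : ℤ) < (q : ℤ) ^ 2 := pow_pos (by exact_mod_cast hq.pos) 2
  refine ⟨(Finset.Ico (0 : ℤ) ((q : ℤ) ^ 2)).filter fun r => (q : ℤ) ^ 2 ∣ h.eval r, ?_, ?_⟩
  · classical
    set hbar := h.map (Int.castRingHom (ZMod q)) with hbar'
    have hne : hbar ≠ 0 := fun h0 => by
      have := congrArg (fun p => p.coeff 4) h0
      simp only [hbar', coeff_map, hh, coeff_four_quarticPoly, coeff_zero, eq_intCast,
        ZMod.intCast_zmod_eq_zero_iff_dvd] at this
      exact hqc this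
    have hcard : hbar.roots.toFinset.card ≤ 4 :=
      (Multiset.toFinset_card_le _).trans ((card_roots' _).trans
        (natDegree_map_le.trans (natDegree_quarticPoly_le _ _ _ _ _)))
    refine le_trans (Finset.card_le_card_of_injOn (fun r : ℤ => (r : ZMod q)) ?_ ?_) hcard
    · intro r hr
      rw [Finset.mem_coe, Finset.mem_filter] at hr
      rw [Finset.mem_coe, Multiset.mem_toFinset, mem_roots hne, IsRoot, hbar', eval_intCast_map,
        Int.cast_id, eq_intCast, ZMod.intCast_zmod_eq_zero_iff_dvd]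
      exact (dvd_pow_self _ two_ne_zero).trans hr.2
    · intro r hr s hs hrs
      rw [Finset.mem_coe, Finset.mem_filter, Finset.mem_Ico] at hr hs
      obtain ⟨t, ht⟩ : (q : ℤ) ∣ s - r := by
        rw [← ZMod.intCast_zmod_eq_zero_iff_dvd, Int.cast_sub, sub_eq_zero]
        exact hrs.symm
      obtain ⟨k, hk⟩ := Polynomial.binomExpansion h r ((q : ℤ) * t)
      rw [show r + (q : ℤ) * t = s by rw [← ht]; ring] at hk
      have h1 : (q : ℤ) ^ 2 ∣ (q : ℤ) * (h.derivative.eval r * t) := by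
        have e : (q : ℤ) * (h.derivative.eval r * t) =
            h.eval s - h.eval r - k * t ^ 2 * (q : ℤ) ^ 2 := by linear_combination -hk
        rw [e]
        exact (dvd_sub hs.2 hr.2).sub (dvd_mul_left _ _)
      rw [pow_two] at h1
      have h2 := Int.dvd_of_mul_dvd_mul_left (by exact_mod_cast hq.ne_zero) h1
      have hder : ¬ (q : ℤ) ∣ h.derivative.eval r := fun hd => hqD <| by
        have e := congrArg (Polynomial.eval r) hUV
        simp only [eval_add, eval_mul, eval_C] at e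
        rw [← e]
        exact dvd_add (((dvd_pow_self _ two_ne_zero).trans hr.2).mul_left _) (hd.mul_left _)
      obtain ⟨t', rfl⟩ := (hq'.dvd_or_dvd h2).resolve_left hder
      have h3 : (q : ℤ) ^ 2 ∣ s - r := ⟨t', by rw [ht]; ring⟩
      have h4 : |s - r| < (q : ℤ) ^ 2 := abs_lt.mpr ⟨by linarith, by linarith⟩
      linarith [Int.eq_zero_of_abs_lt_dvd h3 h4]
  · intro a b hab hH
    have hqb : ¬ (q : ℤ) ∣ b := fun hb => hab ⟨by
      have h1 : (q : ℤ) ∣ c₀ * a ^ 4 := by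
        have e : c₀ * a ^ 4 = quarticForm c₀ c₁ c₂ c₃ c₄ a b -
            b * (c₁ * a ^ 3 + c₂ * a ^ 2 * b + c₃ * a * b ^ 2 + c₄ * b ^ 3) := by
          unfold quarticForm; ring
        rw [e]
        exact dvd_sub ((dvd_pow_self _ two_ne_zero).trans hH) (hb.mul_right _)
      exact hq'.dvd_of_dvd_pow ((hq'.dvd_or_dvd h1).resolve_left hqc), hb⟩
    obtain ⟨u, v, huv⟩ := ((hq'.coprime_iff_not_dvd.mpr hqb).pow_left (m := 2))
    refine ⟨a * v % (q : ℤ) ^ 2, Finset.mem_filter.mpr ⟨Finset.mem_Ico.mpr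
      ⟨Int.emod_nonneg _ hq2.ne', Int.emod_lt_of_pos _ hq2⟩, ?_⟩, ?_⟩
    · have h1 : (q : ℤ) ^ 2 ∣ h.eval (a * v) := by
        have e : h.eval (a * v) = v ^ 4 * quarticForm c₀ c₁ c₂ c₃ c₄ a b +
            (quarticForm c₀ c₁ c₂ c₃ c₄ (a * v) 1 -
              quarticForm c₀ c₁ c₂ c₃ c₄ (a * v) (b * v)) := by
          rw [hh, eval_quarticPoly]; unfold quarticForm; ring
        rw [e]
        refine dvd_add (hH.mul_left _) ?_
        have hbv : b * v = 1 - u * (q : ℤ) ^ 2 := by linear_combination huv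
        rw [hbv]
        unfold quarticForm
        refine ⟨u * (c₁ * (a * v) ^ 3 + c₂ * (a * v) ^ 2 * (2 - u * (q : ℤ) ^ 2)
          + c₃ * (a * v) * (1 + (1 - u * (q : ℤ) ^ 2) + (1 - u * (q : ℤ) ^ 2) ^ 2)
          + c₄ * ((1 + (1 - u * (q : ℤ) ^ 2)) * (1 + (1 - u * (q : ℤ) ^ 2) ^ 2))), by ring⟩
      have h2 : (q : ℤ) ^ 2 ∣ a * v % (q : ℤ) ^ 2 - a * v :=
        ⟨-(a * v / (q : ℤ) ^ 2), by linear_combination Int.emod_add_mul_ediv (a * v) ((q : ℤ) ^ 2)⟩
      have := (h2.trans (Polynomial.sub_dvd_eval_sub _ _ h)).add h1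
      simpa using this
    · exact ⟨a * u + a * v / (q : ℤ) ^ 2 * b,
        by linear_combination (-a) * huv - b * Int.emod_add_mul_ediv (a * v) ((q : ℤ) ^ 2)⟩

end Fermat.Agent.TwoAdic
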