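/-
The squarefree sieve for binary quartic forms: coprime values, in a congruence class and in an
open cone, at which the form is squarefree outside a finite set of primes.
-/
import Fermat.Agent.TwoAdic.Sieve.Defs
import Fermat.Agent.TwoAdic.Sieve.Roots
import Fermat.Agent.TwoAdic.Sieve.Count
import Mathlib.Algebra.Squarefree.Basic
import Mathlib.RingTheory.Coprime.Lemmas
import Mathlib.Tactic.LinearCombination

set_option autoImplicit false

open Polynomial Finset Filter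

namespace Fermat.Agent.TwoAdic

/-- Prescribing a class modulo `M` and classes modulo `q²` for finitely many `q ∤ M`. -/
theorem exists_simultaneous_congr {M : ℤ} (a₀ b₀ : ℤ) (x y : ℕ → ℤ) (T : Finset ℕ)
    (hT : ∀ q ∈ T, q.Prime ∧ ¬ (q : ℤ) ∣ M) :
    ∃ a b : ℤ, M ∣ a - a₀ ∧ M ∣ b - b₀ ∧
      ∀ q ∈ T, (q : ℤ) ^ 2 ∣ a - x q ∧ (q : ℤ) ^ 2 ∣ b - y q := by
  induction T using Finset.induction_on with
  | empty => exact ⟨a₀, b₀, by simp, by simp, by simp⟩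
  | @insert q T hqT ih =>
    obtain ⟨a, b, ha, hb, hab⟩ := ih fun p hp => hT p (mem_insert_of_mem hp)
    obtain ⟨hq, hqM⟩ := hT q (mem_insert_self _ _)
    have hq' : Prime (q : ℤ) := Nat.prime_iff_prime_int.mp hq
    have hcop : IsCoprime ((q : ℤ) ^ 2) (M * ∏ p ∈ T, (p : ℤ) ^ 2) := by
      refine IsCoprime.pow_left (IsCoprime.mul_right (hq'.coprime_iff_not_dvd.mpr hqM)
        (IsCoprime.prod_right fun p hp => IsCoprime.pow_right ?_))
      refine hq'.coprime_iff_not_dvd.mpr fun h => hqT ?_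
      have hpq : q = p := (Nat.prime_dvd_prime_iff_eq hq (hT p (mem_insert_of_mem hp)).1).mp
        (Int.natCast_dvd_natCast.mp h)
      rwa [hpq]
    obtain ⟨u, v, huv⟩ := hcop
    set L := M * ∏ p ∈ T, (p : ℤ) ^ 2
    have hML : M ∣ L := dvd_mul_right _ _
    have hpL : ∀ p ∈ T, (p : ℤ) ^ 2 ∣ L := fun p hp => (dvd_prod_of_mem _ hp).mul_left _
    refine ⟨a + v * L * (x q - a), b + v * L * (y q - b), ?_, ?_, fun p hp => ?_⟩
    · rw [show a + v * L * (x q - a) - a₀ = a - a₀ + L * (v * (x q - a)) by ring]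
      exact dvd_add ha (hML.mul_right _)
    · rw [show b + v * L * (y q - b) - b₀ = b - b₀ + L * (v * (y q - b)) by ring]
      exact dvd_add hb (hML.mul_right _)
    · rcases mem_insert.mp hp with rfl | hp
      · exact ⟨⟨-(u * (x p - a)), by linear_combination (x p - a) * huv⟩,
          ⟨-(u * (y p - b)), by linear_combination (y p - b) * huv⟩⟩
      · obtain ⟨h1, h2⟩ := hab p hp
        rw [show a + v * L * (x q - a) - x p = a - x p + L * (v * (x q - a)) by ring,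
          show b + v * L * (y q - b) - y p = b - y p + L * (v * (y q - b)) by ring]
        exact ⟨dvd_add h1 ((hpL p hp).mul_right _), dvd_add h2 ((hpL p hp).mul_right _)⟩

theorem natAbs_quarticForm_le (c₀ c₁ c₂ c₃ c₄ a b : ℤ) {R : ℕ} (ha : a.natAbs ≤ R)
    (hb : b.natAbs ≤ R) :
    (quarticForm c₀ c₁ c₂ c₃ c₄ a b).natAbs ≤
      (c₀.natAbs + c₁.natAbs + c₂.natAbs + c₃.natAbs + c₄.natAbs) * R ^ 4 := by
  have ht : ∀ (c : ℤ) (i j : ℕ), i + j = 4 → (c * a ^ i * b ^ j).natAbs ≤ c.natAbs * R ^ 4 := by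
    intro c i j hij
    rw [Int.natAbs_mul, Int.natAbs_mul, Int.natAbs_pow, Int.natAbs_pow, ← hij, pow_add, mul_assoc]
    gcongr
  have h0 := ht c₀ 4 0 rfl
  have h1 := ht c₁ 3 1 rfl
  have h2 := ht c₂ 2 2 rfl
  have h3 := ht c₃ 1 3 rfl
  have h4 := ht c₄ 0 4 rfl
  simp only [pow_zero, mul_one, pow_one] at h0 h1 h2 h3 h4
  unfold quarticForm
  refine (Int.natAbs_add_le _ _).trans ?_
  have e1 := Int.natAbs_add_le (c₀ * a ^ 4) (c₁ * a ^ 3 * b)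
  have e2 := Int.natAbs_add_le (c₀ * a ^ 4 + c₁ * a ^ 3 * b) (c₂ * a ^ 2 * b ^ 2)
  have e3 := Int.natAbs_add_le (c₀ * a ^ 4 + c₁ * a ^ 3 * b + c₂ * a ^ 2 * b ^ 2)
    (c₃ * a * b ^ 3)
  simp only [add_mul]
  omega

/-- Two primitive points on a line `a ≡ r b` modulo a large `m` coincide. -/
theorem eq_of_dvd_sub_mul {m r a b a' b' : ℤ} (h : m ∣ a - r * b) (h' : m ∣ a' - r * b')
    (hlt : |a * b' - a' * b| < m) (hab : IsCoprime a b) (hab' : IsCoprime a' b')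
    (hb : 0 < b) (hb' : 0 < b') : a = a' ∧ b = b' := by
  have hd : m ∣ a * b' - a' * b := by
    rw [show a * b' - a' * b = b' * (a - r * b) - b * (a' - r * b') by ring]
    exact dvd_sub (h.mul_left _) (h'.mul_left _)
  have e : a * b' = a' * b := sub_eq_zero.mp (Int.eq_zero_of_abs_lt_dvd hd hlt)
  have h1 : b ∣ b' := hab.symm.dvd_of_dvd_mul_left ⟨a', by linear_combination e⟩
  have h2 : b' ∣ b := hab'.symm.dvd_of_dvd_mul_left ⟨a, by linear_combination -e⟩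
  have hbb : b = b' := Int.dvd_antisymm hb.le hb'.le h1 h2
  subst hbb
  exact ⟨mul_right_cancel₀ hb.ne' e, rfl⟩

/-- Coprimality with an integer all of whose prime factors avoid `q`. -/
theorem isCoprime_natCast_pow {q : ℕ} (hq : q.Prime) {M : ℤ} (hM : ¬ (q : ℤ) ∣ M) (k : ℕ) :
    IsCoprime ((q : ℤ) ^ k) M :=
  ((Nat.prime_iff_prime_int.mp hq).coprime_iff_not_dvd.mpr hM).pow_left

theorem box_bounds {M a₀ b₀ u v c : ℤ} (hM : 0 < M) (hv : 1 ≤ v) {K N : ℕ}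
    (hK : (M * (u.natAbs + v + 2)).natAbs ≤ K) (hN : a₀.natAbs + b₀.natAbs + c.natAbs + 1 ≤ N)
    {i j : ℤ} (hi : i ∈ Ico (u * N) (u * N + N)) (hj : j ∈ Ico (v * N) (v * N + N)) :
    (a₀ + M * i).natAbs ≤ K * N ∧ (b₀ + M * j).natAbs ≤ K * N ∧
      (c.natAbs : ℤ) < b₀ + M * j := by
  have hi' := mem_Ico.mp hi
  have hj' := mem_Ico.mp hj
  have hN' : (a₀.natAbs : ℤ) + b₀.natAbs + c.natAbs + 1 ≤ N := by exact_mod_cast hN
  have hMK : M * (|u| + v + 2) ≤ K := by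
    rw [← Int.natCast_natAbs u]
    exact le_trans (Int.le_natAbs) (by exact_mod_cast hK)
  have ha0 : |a₀| = (a₀.natAbs : ℤ) := (Int.natCast_natAbs _).symm
  have hb0 : |b₀| = (b₀.natAbs : ℤ) := (Int.natCast_natAbs _).symm
  have hiabs : |i| ≤ (|u| + 1) * N := by
    rw [abs_le]
    have e1 : u * (N : ℤ) ≤ |u| * N := mul_le_mul_of_nonneg_right (le_abs_self u) (by omega)
    have e2 : -|u| * (N : ℤ) ≤ u * N := mul_le_mul_of_nonneg_right (neg_abs_le u) (by omega)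
    constructor <;> linarith
  have hjpos : (N : ℤ) ≤ j := by
    have : (N : ℤ) ≤ v * N := le_mul_of_one_le_left (by omega) hv
    linarith
  have hM1 : 1 ≤ M := hM
  have hMj : (N : ℤ) ≤ M * j := le_trans hjpos (le_mul_of_one_le_left (by omega) hM1)
  have hMju : M * j ≤ M * ((v + 1) * N) := mul_le_mul_of_nonneg_left (by linarith) hM.le
  have hMi : |M * i| ≤ M * ((|u| + 1) * N) := by
    rw [abs_mul, abs_of_pos hM]; exact mul_le_mul_of_nonneg_left hiabs hM.le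
  have hKN : M * (|u| + v + 2) * N ≤ (K : ℤ) * N :=
    mul_le_mul_of_nonneg_right hMK (by omega)
  have hMN : (N : ℤ) ≤ M * N := le_mul_of_one_le_left (by omega) hM1
  have hMu : 0 ≤ M * (|u| * N) := by positivity
  have hMv : 0 ≤ M * (v * N) := by positivity
  have hba := abs_add_le a₀ (M * i)
  have hbb := abs_add_le b₀ (M * j)
  rw [abs_of_nonneg (show (0 : ℤ) ≤ M * j by linarith)] at hbb
  refine ⟨?_, ?_, ?_⟩
  · zify; linarith
  · zify; linarith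
  · linarith [neg_abs_le b₀]

theorem card_prim_small {M a₀ b₀ X Y : ℤ} {N p : ℕ} (hp : p.Prime) (hpM : ¬ (p : ℤ) ∣ M) :
    (((Ico X (X + N)).filter fun i => (p : ℤ) ∣ a₀ + M * i) ×ˢ
      ((Ico Y (Y + N)).filter fun j => (p : ℤ) ∣ b₀ + M * j)).card ≤ (N / p + 1) ^ 2 := by
  have hcp : IsCoprime (p : ℤ) M := by simpa using isCoprime_natCast_pow hp hpM 1
  rw [card_product, pow_two]
  exact Nat.mul_le_mul
    (card_le_of_dvd_sub hp.pos (filter_subset _ _) fun i hi j hj =>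
      dvd_sub_of_dvd_add_mul hcp (mem_filter.mp hi).2 (mem_filter.mp hj).2)
    (card_le_of_dvd_sub hp.pos (filter_subset _ _) fun i hi j hj =>
      dvd_sub_of_dvd_add_mul hcp (mem_filter.mp hi).2 (mem_filter.mp hj).2)

theorem card_class_small {M a₀ b₀ r X Y : ℤ} {N q : ℕ} (hq : q.Prime) (hqM : ¬ (q : ℤ) ∣ M) :
    ((Ico X (X + N) ×ˢ Ico Y (Y + N)).filter fun t =>
      (q : ℤ) ^ 2 ∣ a₀ + M * t.1 - r * (b₀ + M * t.2)).card ≤ N * (N / q ^ 2 + 1) := by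
  classical
  have hsub : ((Ico X (X + N) ×ˢ Ico Y (Y + N)).filter fun t =>
      (q : ℤ) ^ 2 ∣ a₀ + M * t.1 - r * (b₀ + M * t.2)) ⊆ (Ico Y (Y + N)).biUnion fun j =>
      ((Ico X (X + N)).filter fun i =>
        (q : ℤ) ^ 2 ∣ a₀ + M * i - r * (b₀ + M * j)).image (·, j) := by
    rintro ⟨i, j⟩ ht
    obtain ⟨hij, h⟩ := mem_filter.mp ht
    obtain ⟨hi, hj⟩ := mem_product.mp hij
    exact mem_biUnion.mpr ⟨j, hj, mem_image.mpr ⟨i, mem_filter.mpr ⟨hi, h⟩, rfl⟩⟩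
  refine (card_le_card hsub).trans ((card_biUnion_le_card_mul _ _ (N / q ^ 2 + 1)
    fun j _ => card_image_le.trans ?_).trans (by simp))
  refine card_le_of_dvd_sub (pow_pos hq.pos 2) (filter_subset _ _) fun i hi i' hi' => ?_
  refine dvd_sub_of_dvd_add_mul (c := a₀ - r * (b₀ + M * j)) ?_ ?_ ?_ (M := M)
  · simpa using isCoprime_natCast_pow hq hqM 2
  · rw [Nat.cast_pow, show a₀ - r * (b₀ + M * j) + M * i = a₀ + M * i - r * (b₀ + M * j) by ring]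
    exact (mem_filter.mp hi).2
  · rw [Nat.cast_pow, show a₀ - r * (b₀ + M * j) + M * i' = a₀ + M * i' - r * (b₀ + M * j) by ring]
    exact (mem_filter.mp hi').2

theorem natAbs_det_lt {a b a' b' : ℤ} {R C q : ℕ} (ha : a.natAbs ≤ R) (hb : b.natAbs ≤ R)
    (ha' : a'.natAbs ≤ R) (hb' : b'.natAbs ≤ R) (hC : 2 * R ≤ C) (hq : C < q) :
    |a * b' - a' * b| < (q : ℤ) ^ 2 := by
  have hn : (a * b' - a' * b).natAbs < q ^ 2 := by
    refine lt_of_le_of_lt (Int.natAbs_sub_le _ _) ?_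
    rw [Int.natAbs_mul, Int.natAbs_mul]
    have e1 := Nat.mul_le_mul ha hb'
    have e2 := Nat.mul_le_mul ha' hb
    have e3 := Nat.mul_self_lt_mul_self hq
    have e4 := Nat.mul_le_mul hC hC
    rw [show 2 * R * (2 * R) = 4 * (R * R) by ring] at e4
    rw [pow_two]
    omega
  rw [← Int.natCast_natAbs]
  exact_mod_cast hn

theorem sieve_count_lt {Q N C1 C2 : ℕ} (hQ : 24 ≤ Q) (hC1 : 0 < C1) (hC2 : 0 < C2)
    (h1 : 48 * C1 * Nat.primeCounting (C1 * N) ≤ C1 * N)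
    (h2 : 32 * C2 * Nat.primeCounting (C2 * N ^ 2) ≤ C2 * N ^ 2) (hN : 1 ≤ N) {f g h : ℕ → ℕ}
    (hf : ∀ p ∈ (Ioc Q (C1 * N)).filter Nat.Prime, f p ≤ (N / p + 1) ^ 2)
    (hg : ∀ q ∈ (Ioc Q (C1 * N)).filter Nat.Prime, g q ≤ 4 * (N * (N / q ^ 2 + 1)))
    (hh : ∀ q ∈ (Ioc (C1 * N) (C2 * N ^ 2)).filter Nat.Prime, h q ≤ 4) :
    (((∑ p ∈ (Ioc Q (C1 * N)).filter Nat.Prime, f p) +
      (∑ q ∈ (Ioc Q (C1 * N)).filter Nat.Prime, g q) +
      (∑ q ∈ (Ioc (C1 * N) (C2 * N ^ 2)).filter Nat.Prime, h q) : ℕ) : ℝ) < (N : ℝ) ^ 2 := by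
  set P1 := (Ioc Q (C1 * N)).filter Nat.Prime
  set P2 := (Ioc (C1 * N) (C2 * N ^ 2)).filter Nat.Prime
  set σ := ∑ p ∈ P1, (N : ℝ) ^ 2 / (p : ℝ) ^ 2
  have e1 : ((∑ p ∈ P1, f p : ℕ) : ℝ) ≤ 2 * σ + 2 * P1.card := by
    rw [Nat.cast_sum, mul_sum, mul_comm 2 (P1.card : ℝ), ← nsmul_eq_mul, ← sum_const,
      ← sum_add_distrib]
    refine sum_le_sum fun p hp => (Nat.cast_le.mpr (hf p hp)).trans ?_
    push_cast
    have h := Nat.cast_div_le (α := ℝ) (m := N) (n := p)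
    calc (((N / p : ℕ) : ℝ) + 1) ^ 2
          ≤ 2 * ((N / p : ℕ) : ℝ) ^ 2 + 2 := by nlinarith [sq_nonneg (((N / p : ℕ) : ℝ) - 1)]
      _ ≤ 2 * ((N : ℝ) / p) ^ 2 + 2 := by gcongr
      _ = _ := by rw [div_pow]
  have e2 : ((∑ q ∈ P1, g q : ℕ) : ℝ) ≤ 4 * σ + 4 * N * P1.card := by
    rw [Nat.cast_sum, mul_sum, mul_comm (4 * (N : ℝ)) (P1.card : ℝ), ← nsmul_eq_mul,
      ← sum_const, ← sum_add_distrib]
    refine sum_le_sum fun q hq => (Nat.cast_le.mpr (hg q hq)).trans ?_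
    push_cast
    have h := Nat.cast_div_le (α := ℝ) (m := N) (n := q ^ 2)
    push_cast at h
    calc 4 * ((N : ℝ) * (((N / q ^ 2 : ℕ) : ℝ) + 1))
        ≤ 4 * ((N : ℝ) * ((N : ℝ) / (q : ℝ) ^ 2 + 1)) := by gcongr
      _ = _ := by ring
  have e3 : ((∑ q ∈ P2, h q : ℕ) : ℝ) ≤ 4 * P2.card := by
    have := (sum_le_sum hh).trans (le_of_eq (sum_const _))
    rw [smul_eq_mul] at this
    exact_mod_cast this.trans (le_of_eq (mul_comm _ _))
  have hs : σ ≤ 2 * (N : ℝ) ^ 2 / 25 := by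
    refine (sum_primes_div_sq_le N Q (C1 * N)).trans ?_
    gcongr
    have : (24 : ℝ) ≤ Q := by exact_mod_cast hQ
    linarith
  have hp1 : P1.card * 48 ≤ N := by
    refine Nat.le_of_mul_le_mul_left (le_trans ?_ h1) hC1
    rw [show C1 * (P1.card * 48) = 48 * C1 * P1.card by ring]
    exact Nat.mul_le_mul_left _ (card_primes_Ioc_le _ _)
  have hp2 : P2.card * 32 ≤ N ^ 2 := by
    refine Nat.le_of_mul_le_mul_left (le_trans ?_ h2) hC2
    rw [show C2 * (P2.card * 32) = 32 * C2 * P2.card by ring]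
    exact Nat.mul_le_mul_left _ (card_primes_Ioc_le _ _)
  have hp1' : (P1.card : ℝ) * 48 ≤ N := by exact_mod_cast hp1
  have hp2' : (P2.card : ℝ) * 32 ≤ (N : ℝ) ^ 2 := by exact_mod_cast hp2
  have hN1 : (1 : ℝ) ≤ N := by exact_mod_cast hN
  have hN2 : (1 : ℝ) ≤ (N : ℝ) ^ 2 := one_le_pow₀ hN1
  have hP1N : (4 * (N : ℝ) + 2) * P1.card ≤ (N : ℝ) ^ 2 / 8 := by
    calc (4 * (N : ℝ) + 2) * P1.card ≤ (6 * (N : ℝ)) * ((N : ℝ) / 48) :=
          mul_le_mul (by linarith) (by linarith) (Nat.cast_nonneg _) (by linarith)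
      _ = _ := by ring
  push_cast at e1 e2 e3 ⊢
  nlinarith

/-- The counting core: a class modulo `M` at which all primes up to the cut-off are harmless. -/
theorem exists_good_point {c₀ c₁ c₂ c₃ c₄ : ℤ} {S : Finset ℕ} {M a₀ b₀ : ℤ} (hM : 0 < M)
    {Q : ℕ} (hQ : 24 ≤ Q)
    (hclasses : ∀ q : ℕ, q.Prime → Q < q → ∃ R : Finset ℤ, R.card ≤ 4 ∧
      ∀ a b : ℤ, ¬ ((q : ℤ) ∣ a ∧ (q : ℤ) ∣ b) →
        (q : ℤ) ^ 2 ∣ quarticForm c₀ c₁ c₂ c₃ c₄ a b → ∃ r ∈ R, (q : ℤ) ^ 2 ∣ a - r * b)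
    (hsmall : ∀ p : ℕ, p.Prime → ((p : ℤ) ∣ M ∨ p ≤ Q) → ∀ a b : ℤ, M ∣ a - a₀ → M ∣ b - b₀ →
      ¬ ((p : ℤ) ∣ a ∧ (p : ℤ) ∣ b) ∧
        (p ∉ S → ¬ (p : ℤ) ^ 2 ∣ quarticForm c₀ c₁ c₂ c₃ c₄ a b))
    (hc₀ : c₀ ≠ 0) {u v : ℤ} (hv : 1 ≤ v) {K : ℕ}
    (hK : (M * (u.natAbs + v + 2)).natAbs ≤ K) :
    ∀ᶠ N : ℕ in atTop, ∃ i j : ℤ, i ∈ Ico (u * N) (u * N + N) ∧ j ∈ Ico (v * N) (v * N + N) ∧
      IsCoprime (a₀ + M * i) (b₀ + M * j) ∧
      quarticForm c₀ c₁ c₂ c₃ c₄ (a₀ + M * i) (b₀ + M * j) ≠ 0 ∧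
      ∀ q : ℕ, q.Prime → q ∉ S →
        ¬ (q : ℤ) ^ 2 ∣ quarticForm c₀ c₁ c₂ c₃ c₄ (a₀ + M * i) (b₀ + M * j) := by
  classical
  set A := c₀.natAbs + c₁.natAbs + c₂.natAbs + c₃.natAbs + c₄.natAbs with hA
  set C1 : ℕ := 2 * K + 2 with hC1
  set C2 : ℕ := (A + 1) * K ^ 2 + 1 with hC2
  have hev1 := (tendsto_atTop_mono (fun n => Nat.le_mul_of_pos_left n (show 0 < C1 by omega))
    tendsto_id).eventually (eventually_mul_primeCounting_le (48 * C1))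
  have hev2 := (tendsto_atTop_mono (fun n : ℕ => show n ≤ C2 * n ^ 2 from
    le_trans (Nat.le_self_pow two_ne_zero n) (Nat.le_mul_of_pos_left _ (by omega)))
    tendsto_id).eventually (eventually_mul_primeCounting_le (32 * C2))
  filter_upwards [hev1, hev2, eventually_ge_atTop (a₀.natAbs + b₀.natAbs + c₀.natAbs + 1)]
    with N h1 h2 hN
  set I := Ico (u * N) (u * N + N)
  set J := Ico (v * N) (v * N + N)
  have hIcard : I.card = N := by simp [I]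
  have hJcard : J.card = N := by simp [J]
  -- bounds on the box
  have hbox : ∀ i ∈ I, ∀ j ∈ J, (a₀ + M * i).natAbs ≤ K * N ∧ (b₀ + M * j).natAbs ≤ K * N ∧
      (c₀.natAbs : ℤ) < b₀ + M * j := fun i hi j hj => box_bounds hM hv hK hN hi hj
  -- the bad points
  set P1 := (Ioc Q (C1 * N)).filter Nat.Prime with hP1
  set P2 := (Ioc (C1 * N) (C2 * N ^ 2)).filter Nat.Prime with hP2
  set F1 : ℕ → Finset (ℤ × ℤ) := fun p =>
    if (p : ℤ) ∣ M then ∅ else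
      (I.filter fun i => (p : ℤ) ∣ a₀ + M * i) ×ˢ (J.filter fun j => (p : ℤ) ∣ b₀ + M * j)
  set F2 : ℕ → Finset (ℤ × ℤ) := fun q => (I ×ˢ J).filter fun t =>
    ¬ (q : ℤ) ∣ M ∧ q ∉ S ∧ IsCoprime (a₀ + M * t.1) (b₀ + M * t.2) ∧
      (q : ℤ) ^ 2 ∣ quarticForm c₀ c₁ c₂ c₃ c₄ (a₀ + M * t.1) (b₀ + M * t.2)
  have hcop : ∀ {a b : ℤ} {q : ℕ}, q.Prime → IsCoprime a b → ¬ ((q : ℤ) ∣ a ∧ (q : ℤ) ∣ b) :=
    fun hq hab h => (Nat.prime_iff_prime_int.mp hq).not_isUnit (hab.isUnit_of_dvd' h.1 h.2)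
  have hF1 : ∀ p ∈ P1, (F1 p).card ≤ (N / p + 1) ^ 2 := by
    intro p hp
    simp only [F1]
    split_ifs with hpM
    · simp
    · exact card_prim_small (mem_filter.mp hp).2 hpM
  have hF2 : ∀ q ∈ P1, (F2 q).card ≤ 4 * (N * (N / q ^ 2 + 1)) := by
    intro q hq
    obtain ⟨hq1, hqp⟩ := mem_filter.mp hq
    by_cases hqM : (q : ℤ) ∣ M
    · simp [F2, hqM]
    obtain ⟨R, hRc, hR⟩ := hclasses q hqp (mem_Ioc.mp hq1).1
    have hsub : F2 q ⊆ R.biUnion fun r => (I ×ˢ J).filter fun t =>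
        (q : ℤ) ^ 2 ∣ a₀ + M * t.1 - r * (b₀ + M * t.2) := by
      intro t ht
      obtain ⟨hij, -, -, hc, hH⟩ := mem_filter.mp ht
      obtain ⟨r, hr, hdvd⟩ := hR _ _ (hcop hqp hc) hH
      exact mem_biUnion.mpr ⟨r, hr, mem_filter.mpr ⟨hij, hdvd⟩⟩
    exact (card_le_card hsub).trans ((card_biUnion_le_card_mul _ _ (N * (N / q ^ 2 + 1))
      fun r _ => card_class_small hqp hqM).trans (Nat.mul_le_mul_right _ hRc))
  have hF2' : ∀ q ∈ P2, (F2 q).card ≤ 4 := by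
    intro q hq
    obtain ⟨hq1, hqp⟩ := mem_filter.mp hq
    have hqC : C1 * N < q := (mem_Ioc.mp hq1).1
    rcases lt_or_ge Q q with hQq | hqQ
    · obtain ⟨R, hRc, hR⟩ := hclasses q hqp hQq
      refine le_trans ?_ hRc
      have hsub : F2 q ⊆ R.biUnion fun r => (I ×ˢ J).filter fun t =>
          IsCoprime (a₀ + M * t.1) (b₀ + M * t.2) ∧
            (q : ℤ) ^ 2 ∣ a₀ + M * t.1 - r * (b₀ + M * t.2) := by
        rintro t ht
        obtain ⟨hij, -, -, hc, hH⟩ := mem_filter.mp ht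
        obtain ⟨r, hr, hdvd⟩ := hR _ _ (hcop hqp hc) hH
        exact mem_biUnion.mpr ⟨r, hr, mem_filter.mpr ⟨hij, hc, hdvd⟩⟩
      refine (card_le_card hsub).trans ((card_biUnion_le_card_mul _ _ 1 fun r _ => ?_).trans
        (mul_one _).le)
      rw [card_le_one]
      intro t ht t' ht'
      obtain ⟨hij, hc, hd⟩ := mem_filter.mp ht
      obtain ⟨hij', hc', hd'⟩ := mem_filter.mp ht'
      obtain ⟨hi, hj⟩ := mem_product.mp hij
      obtain ⟨hi', hj'⟩ := mem_product.mp hij'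
      obtain ⟨ba, bb, bp⟩ := hbox _ hi _ hj
      obtain ⟨ba', bb', bp'⟩ := hbox _ hi' _ hj'
      have hlt := natAbs_det_lt ba bb ba' bb'
        (show 2 * (K * N) ≤ C1 * N by rw [← mul_assoc]; exact Nat.mul_le_mul_right _ (Nat.le_add_right _ _)) hqC
      obtain ⟨e1, e2⟩ := eq_of_dvd_sub_mul hd hd' hlt hc hc' (lt_of_le_of_lt (Int.natCast_nonneg _) bp)
        (lt_of_le_of_lt (Int.natCast_nonneg _) bp')
      exact Prod.ext (mul_left_cancel₀ hM.ne' (add_left_cancel e1))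
        (mul_left_cancel₀ hM.ne' (add_left_cancel e2))
    · refine le_trans (le_of_eq (card_eq_zero.mpr (filter_eq_empty_iff.mpr fun t _ h => ?_)))
        (Nat.zero_le _)
      exact (hsmall q hqp (Or.inr hqQ) _ _ (by simp) (by simp)).2 h.2.1 h.2.2.2
  -- counting
  set Bad := P1.biUnion F1 ∪ P1.biUnion F2 ∪ P2.biUnion F2 with hBad
  have hBcard : (Bad.card : ℝ) < (N : ℝ) ^ 2 :=
    lt_of_le_of_lt (Nat.cast_le.mpr ((card_union_le _ _).trans (add_le_add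
      ((card_union_le _ _).trans (add_le_add card_biUnion_le card_biUnion_le)) card_biUnion_le)))
      (sieve_count_lt hQ (by omega) (by omega) h1 h2 (by omega) (fun p hp => hF1 p hp)
        (fun q hq => hF2 q hq) (fun q hq => hF2' q hq))
  obtain ⟨⟨i, j⟩, hij, hgood⟩ := not_subset.mp fun h : I ×ˢ J ⊆ Bad => by
    have := card_le_card h
    rw [card_product, hIcard, hJcard, ← pow_two] at this
    exact absurd ((Nat.cast_le (α := ℝ)).mpr this) (not_le.mpr (by rw [Nat.cast_pow]; exact hBcard))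
  obtain ⟨hi, hj⟩ := mem_product.mp hij
  obtain ⟨ba, bb, bp⟩ := hbox i hi j hj
  simp only [hBad, mem_union, mem_biUnion, not_or, not_exists, not_and] at hgood
  obtain ⟨⟨hg1, hg2⟩, hg3⟩ := hgood
  set a := a₀ + M * i with ha
  set b := b₀ + M * j with hb
  have hbpos : 0 < b := lt_of_le_of_lt (Int.natCast_nonneg _) bp
  have hab : IsCoprime a b := by
    rw [Int.isCoprime_iff_gcd_eq_one]
    by_contra hne
    obtain ⟨p, hp, hpd⟩ := Nat.exists_prime_and_dvd hne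
    have hpa : (p : ℤ) ∣ a := (Int.natCast_dvd_natCast.mpr hpd).trans (Int.gcd_dvd_left _ _)
    have hpb : (p : ℤ) ∣ b := (Int.natCast_dvd_natCast.mpr hpd).trans (Int.gcd_dvd_right _ _)
    rcases em ((p : ℤ) ∣ M ∨ p ≤ Q) with hsm | hlg
    · exact (hsmall p hp hsm a b (by simp [ha]) (by simp [hb])).1 ⟨hpa, hpb⟩
    · rw [not_or, not_le] at hlg
      refine hg1 p (mem_filter.mpr ⟨mem_Ioc.mpr ⟨hlg.2, ?_⟩, hp⟩) ?_
      · have : p ≤ b.natAbs := Nat.le_of_dvd (by omega) (Int.natCast_dvd.mp hpb)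
        have : K * N ≤ C1 * N := Nat.mul_le_mul_right _ (by omega)
        omega
      · simp only [F1, hlg.1, if_false]
        exact mem_product.mpr ⟨mem_filter.mpr ⟨hi, hpa⟩, mem_filter.mpr ⟨hj, hpb⟩⟩
  have hH0 : quarticForm c₀ c₁ c₂ c₃ c₄ a b ≠ 0 := by
    intro h
    have hdvd : b ∣ c₀ * a ^ 4 := ⟨-(c₁ * a ^ 3 + c₂ * a ^ 2 * b + c₃ * a * b ^ 2 + c₄ * b ^ 3),
      by unfold quarticForm at h; linear_combination h⟩
    have := Int.natAbs_le_of_dvd_ne_zero (hab.symm.pow_right.dvd_of_dvd_mul_right hdvd) hc₀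
    omega
  refine ⟨i, j, hi, hj, hab, hH0, fun q hq hqS hdvd => ?_⟩
  rcases em ((q : ℤ) ∣ M ∨ q ≤ Q) with hsm | hlg
  · exact (hsmall q hq hsm a b (by simp [ha]) (by simp [hb])).2 hqS hdvd
  rw [not_or, not_le] at hlg
  have hmem : (i, j) ∈ F2 q := mem_filter.mpr ⟨hij, hlg.1, hqS, hab, hdvd⟩
  rcases le_or_gt q (C1 * N) with hle | hgt
  · exact hg2 q (mem_filter.mpr ⟨mem_Ioc.mpr ⟨hlg.2, hle⟩, hq⟩) hmem
  · refine hg3 q (mem_filter.mpr ⟨mem_Ioc.mpr ⟨hgt, ?_⟩, hq⟩) hmem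
    have h1 : q ^ 2 ≤ A * (K * N) ^ 4 := le_trans (Nat.le_of_dvd (Int.natAbs_pos.mpr hH0)
      (Int.natCast_dvd.mp (by exact_mod_cast hdvd))) (natAbs_quarticForm_le _ _ _ _ _ _ _ ba bb)
    have h2 : A * (K * N) ^ 4 ≤ (C2 * N ^ 2) ^ 2 := by
      calc A * (K * N) ^ 4 ≤ (A + 1) ^ 2 * (K * N) ^ 4 :=
            Nat.mul_le_mul_right _ (le_trans (Nat.le_succ A) (Nat.le_self_pow two_ne_zero _))
        _ = ((A + 1) * K ^ 2 * N ^ 2) ^ 2 := by ring
        _ ≤ _ := Nat.pow_le_pow_left (Nat.mul_le_mul_right _ (Nat.le_succ _)) 2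
    exact (Nat.pow_le_pow_iff_left two_ne_zero).mp (h1.trans h2)

/-- Squarefree sieve. `hMS` says that the congruence class already decides what happens at the
primes of `M`; `hloc` that there is no local obstruction at the other primes. -/
theorem exists_coprime_quarticForm_sqfreeOutside {c₀ c₁ c₂ c₃ c₄ : ℤ} (hc₀ : c₀ ≠ 0)
    (hsep : Squarefree ((quarticPoly c₀ c₁ c₂ c₃ c₄).map (Int.castRingHom ℚ)))
    {S : Finset ℕ} {M : ℤ} (hM : M ≠ 0) {a₀ b₀ : ℤ}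
    (hprim : ∀ q : ℕ, q.Prime → (q : ℤ) ∣ M → ¬ ((q : ℤ) ∣ a₀ ∧ (q : ℤ) ∣ b₀))
    (hMS : ∀ q : ℕ, q.Prime → (q : ℤ) ∣ M → q ∈ S)
    (hloc : ∀ q : ℕ, q.Prime → q ∉ S → ∃ x y : ℤ, ¬ ((q : ℤ) ∣ x ∧ (q : ℤ) ∣ y) ∧
      ¬ ((q : ℤ) ^ 2 ∣ quarticForm c₀ c₁ c₂ c₃ c₄ x y))
    {α β : ℝ} (hαβ : α < β) (B : ℤ) :
    ∃ a b : ℤ, M ∣ a - a₀ ∧ M ∣ b - b₀ ∧ IsCoprime a b ∧ B < b ∧ 0 < b ∧
      α * b < a ∧ (a : ℝ) < β * b ∧ quarticForm c₀ c₁ c₂ c₃ c₄ a b ≠ 0 ∧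
      ∀ q : ℕ, q.Prime → q ∉ S → ¬ ((q : ℤ) ^ 2 ∣ quarticForm c₀ c₁ c₂ c₃ c₄ a b) := by
  classical
  obtain ⟨q₀, hq₀⟩ := exists_classes_quarticForm hc₀ hsep
  set Q := max 24 q₀ with hQ
  set T := (range (Q + 1)).filter fun q : ℕ => q.Prime ∧ ¬ (q : ℤ) ∣ M with hT
  have hxy : ∀ q : ℕ, ∃ x y : ℤ, q.Prime → ¬ ((q : ℤ) ∣ x ∧ (q : ℤ) ∣ y) ∧
      (q ∉ S → ¬ ((q : ℤ) ^ 2 ∣ quarticForm c₀ c₁ c₂ c₃ c₄ x y)) := by
    intro q
    by_cases hq : q.Prime ∧ q ∉ S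
    · obtain ⟨x, y, h1, h2⟩ := hloc q hq.1 hq.2
      exact ⟨x, y, fun _ => ⟨h1, fun _ => h2⟩⟩
    · exact ⟨1, 0, fun hp => ⟨fun h => (Nat.prime_iff_prime_int.mp hp).not_dvd_one h.1,
        fun hs => absurd ⟨hp, hs⟩ hq⟩⟩
  choose x y hxy using hxy
  obtain ⟨a₁, b₁, ha₁, hb₁, hT₁⟩ :=
    exists_simultaneous_congr a₀ b₀ x y T fun q hq => (mem_filter.mp hq).2
  set M' : ℤ := |M| * ∏ q ∈ T, (q : ℤ) ^ 2 with hM'
  have hM'pos : 0 < M' := mul_pos (abs_pos.mpr hM)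
    (prod_pos fun q hq => by have := (mem_filter.mp hq).2.1.pos; positivity)
  have hMM' : M ∣ M' := ((dvd_abs M M).mpr dvd_rfl).mul_right _
  have hsmall : ∀ p : ℕ, p.Prime → ((p : ℤ) ∣ M' ∨ p ≤ Q) → ∀ a b : ℤ, M' ∣ a - a₁ → M' ∣ b - b₁ →
      ¬ ((p : ℤ) ∣ a ∧ (p : ℤ) ∣ b) ∧
        (p ∉ S → ¬ (p : ℤ) ^ 2 ∣ quarticForm c₀ c₁ c₂ c₃ c₄ a b) := by
    intro p hp hpM' a b ha hb
    by_cases hpM : (p : ℤ) ∣ M
    · refine ⟨fun h => hprim p hp hpM ?_, fun hs => absurd (hMS p hp hpM) hs⟩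
      have e1 := (hpM.trans (hMM'.trans ha))
      have e2 := (hpM.trans (hMM'.trans hb))
      have e3 := hpM.trans ha₁
      have e4 := hpM.trans hb₁
      constructor
      · simpa using (h.1.sub e1).sub e3
      · simpa using (h.2.sub e2).sub e4
    · have hpT : p ∈ T := by
        rcases hpM' with h | h
        · have hp' : Prime (p : ℤ) := Nat.prime_iff_prime_int.mp hp
          obtain ⟨q, hq, hqd⟩ := (hp'.dvd_finsetProd_iff _).mp
            ((hp'.dvd_or_dvd h).resolve_left (by rwa [dvd_abs]))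
          have : p = q := (Nat.prime_dvd_prime_iff_eq hp (mem_filter.mp hq).2.1).mp
            (Int.natCast_dvd_natCast.mp (hp'.dvd_of_dvd_pow hqd))
          rwa [this]
        · exact mem_filter.mpr ⟨mem_range.mpr (by omega), hp, hpM⟩
      obtain ⟨hx, hy⟩ := hT₁ p hpT
      have hpM'2 : (p : ℤ) ^ 2 ∣ M' := (dvd_prod_of_mem _ hpT).mul_left _
      have hax : (p : ℤ) ^ 2 ∣ a - x p := by simpa using dvd_add (hpM'2.trans ha) hx
      have hby : (p : ℤ) ^ 2 ∣ b - y p := by simpa using dvd_add (hpM'2.trans hb) hy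
      refine ⟨fun h => (hxy p hp).1 ⟨?_, ?_⟩, fun hs hd => (hxy p hp).2 hs ?_⟩
      · simpa using h.1.sub ((dvd_pow_self _ two_ne_zero).trans hax)
      · simpa using h.2.sub ((dvd_pow_self _ two_ne_zero).trans hby)
      · have key : (p : ℤ) ^ 2 ∣ quarticForm c₀ c₁ c₂ c₃ c₄ a b -
            quarticForm c₀ c₁ c₂ c₃ c₄ (x p) (y p) := by
          rw [show quarticForm c₀ c₁ c₂ c₃ c₄ a b - quarticForm c₀ c₁ c₂ c₃ c₄ (x p) (y p) =
            (a - x p) * (c₀ * (a + x p) * (a ^ 2 + x p ^ 2)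
              + c₁ * b * (a ^ 2 + a * x p + x p ^ 2) + c₂ * b ^ 2 * (a + x p) + c₃ * b ^ 3)
            + (b - y p) * (c₁ * x p ^ 3 + c₂ * x p ^ 2 * (b + y p)
              + c₃ * x p * (b ^ 2 + b * y p + y p ^ 2) + c₄ * (b + y p) * (b ^ 2 + y p ^ 2)) by
              unfold quarticForm; ring]
          exact dvd_add (hax.mul_right _) (hby.mul_right _)
        simpa using hd.sub key
  -- the box inside the cone
  obtain ⟨v, hv⟩ := exists_int_gt ((|α| + |β| + 3) / (β - α))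
  have hβα : 0 < β - α := sub_pos.mpr hαβ
  rw [div_lt_iff₀ hβα] at hv
  have hv0 : (0 : ℝ) < v := by
    by_contra h
    nlinarith [abs_nonneg α, abs_nonneg β, not_lt.mp h]
  have hv1 : 1 ≤ v := by exact_mod_cast Int.cast_pos.mp hv0
  set u : ℤ := ⌊α * v + |α|⌋ + 1 with hu
  have hu1 : α * v + |α| < u := by rw [hu, Int.cast_add, Int.cast_one]; exact Int.lt_floor_add_one _
  have hu2 : (u : ℝ) ≤ α * v + |α| + 1 := by
    rw [hu, Int.cast_add, Int.cast_one]; linarith [Int.floor_le (α * v + |α|)]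
  have hev := exists_good_point (S := S) (a₀ := a₁) (b₀ := b₁) hM'pos (le_max_left 24 q₀)
    (fun q hq hlt => hq₀ q hq (lt_of_le_of_lt (le_max_right _ _) hlt)) hsmall hc₀ hv1
    (le_refl (M' * (u.natAbs + v + 2)).natAbs) (u := u)
  set γ : ℝ := min ((u : ℝ) - (α * v + |α|)) 1 with hγ
  have hγ0 : 0 < γ := lt_min (by linarith) one_pos
  obtain ⟨N, hN, hNlarge⟩ := (hev.and (eventually_gt_atTop
    (⌈(|(a₁ : ℝ)| + (|α| + |β| + 1) * |(b₁ : ℝ)|) / γ⌉₊ + B.natAbs + b₁.natAbs))).exists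
  obtain ⟨i, j, hi, hj, hab, hH, hsq⟩ := hN
  have hi' := mem_Ico.mp hi
  have hj' := mem_Ico.mp hj
  have hM1 : (1 : ℤ) ≤ M' := hM'pos
  have hjN : (N : ℤ) ≤ j := le_trans (le_mul_of_one_le_left (by omega) hv1) hj'.1
  have hMj : (N : ℤ) ≤ M' * j := le_trans hjN (le_mul_of_one_le_left (by omega) hM1)
  refine ⟨a₁ + M' * i, b₁ + M' * j, ?_, ?_, hab, ?_, ?_, ?_, ?_, hH, hsq⟩
  · rw [add_sub_right_comm]; exact dvd_add ha₁ (hMM'.mul_right _)
  · rw [add_sub_right_comm]; exact dvd_add hb₁ (hMM'.mul_right _)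
  · omega
  · omega
  all_goals
    have hMR : (1 : ℝ) ≤ M' := by exact_mod_cast hM1
    have hNR : (0 : ℝ) ≤ N := Nat.cast_nonneg N
    have hbig : |(a₁ : ℝ)| + (|α| + |β| + 1) * |(b₁ : ℝ)| < (N : ℝ) * γ := by
      rw [← div_lt_iff₀ hγ0]
      refine lt_of_le_of_lt (Nat.le_ceil _) (Nat.cast_lt.mpr ?_)
      omega
    have hi1 : (u : ℝ) * N ≤ i := by exact_mod_cast hi'.1
    have hi2 : (i : ℝ) ≤ u * N + N := by exact_mod_cast hi'.2.le
    have hj1 : (v : ℝ) * N ≤ j := by exact_mod_cast hj'.1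
    have hj2 : (j : ℝ) ≤ v * N + N := by exact_mod_cast hj'.2.le
    have hab1 := abs_nonneg (b₁ : ℝ)
    have hαb : |α * b₁| ≤ |α| * |(b₁ : ℝ)| := (abs_mul _ _).le
    have hβb : |β * b₁| ≤ |β| * |(b₁ : ℝ)| := (abs_mul _ _).le
    have p1 := mul_nonneg (abs_nonneg α) hab1
    have p2 := mul_nonneg (abs_nonneg β) hab1
    push_cast
  · -- lower side of the cone
    have hk : (N : ℝ) * γ ≤ i - α * j := by
      have h1 : α * ((j : ℝ) - v * N) ≤ |α| * N :=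
        le_trans (mul_le_mul_of_nonneg_right (le_abs_self α) (by linarith))
          (mul_le_mul_of_nonneg_left (by linarith) (abs_nonneg α))
      have h2 := mul_le_mul_of_nonneg_left (min_le_left ((u : ℝ) - (α * v + |α|)) 1) hNR
      nlinarith
    have hMk : (N : ℝ) * γ ≤ M' * (i - α * j) :=
      le_trans hk (le_mul_of_one_le_left (le_trans (by positivity) hk) hMR)
    nlinarith [le_abs_self (α * b₁), neg_abs_le (a₁ : ℝ)]
  · -- upper side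
    have hk : (N : ℝ) * γ ≤ β * j - i := by
      have h1 : -(|β| * N) ≤ β * ((j : ℝ) - v * N) :=
        le_trans (by
          have := mul_le_mul_of_nonneg_left (show (j : ℝ) - v * N ≤ N by linarith) (abs_nonneg β)
          linarith) (mul_le_mul_of_nonneg_right (neg_abs_le β) (by linarith))
      have h2 := mul_le_mul_of_nonneg_left (min_le_right ((u : ℝ) - (α * v + |α|)) 1) hNR
      have h3 : (0 : ℝ) ≤ β * v - |β| - u - 2 := by nlinarith
      have h4 := mul_nonneg hNR h3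
      nlinarith
    have hMk : (N : ℝ) * γ ≤ M' * (β * j - i) :=
      le_trans hk (le_mul_of_one_le_left (le_trans (by positivity) hk) hMR)
    nlinarith [neg_abs_le (β * b₁), le_abs_self (a₁ : ℝ)]

end Fermat.Agent.TwoAdic
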